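import Fermat.Agent.S14.Thaine.ClSigma

/-!
# Route T glue (G3): the class of `I` is killed by `p` and lies in the `ω²`-eigenspace
-/

set_option autoImplicit false

namespace Fermat.Agent.S14.Thaine.GlueP

open NumberField IsDedekindDomain
open scoped nonZeroDivisors

/-- In `𝓞 K`: from `σ β = β ^ n * (y / x) ^ p` in `K` we get `σ' β * x ^ p = β ^ n * y ^ p`. -/
theorem class_eigen_int_eq {K : Type*} [Field K] [NumberField K] (σ : K ≃ₐ[ℚ] K) (n q : ℕ)
    (β x y : 𝓞 K) (hx : x ≠ 0)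
    (h : σ (β : K) = (β : K) ^ n * ((y : K) / (x : K)) ^ q) :
    RingOfIntegers.mapRingEquiv (σ : K ≃+* K) β * x ^ q = β ^ n * y ^ q := by
  apply RingOfIntegers.coe_injective
  have hx' : (x : K) ≠ 0 := by
    simpa using hx
  have h1 : algebraMap (𝓞 K) K (RingOfIntegers.mapRingEquiv (σ : K ≃+* K) β) = σ (β : K) := rfl
  simp only [map_mul, map_pow]
  rw [h1, h, div_pow]
  field_simp

/-- (G3) The class of `I` is killed by `p` and lies in the `ω²`-eigenspace. -/
theorem class_eigen {p : ℕ} [Fact p.Prime] {K : Type*} [Field K] [NumberField K]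
    [IsCyclotomicExtension {p} ℚ K] (β : 𝓞 K) (I : (Ideal (𝓞 K))⁰)
    (hI : Ideal.span {β} = (I : Ideal (𝓞 K)) ^ p)
    (heig : ∀ σ : K ≃ₐ[ℚ] K, ∃ γ : K, σ (β : K) = (β : K) ^ sqExp p K σ * γ ^ p) :
    (ClassGroup.mk0 I) ^ p = 1 ∧
      ∀ σ : K ≃ₐ[ℚ] K, clSigma K σ (ClassGroup.mk0 I) = (ClassGroup.mk0 I) ^ sqExp p K σ := by
  have hp : p ≠ 0 := (Fact.out : p.Prime).ne_zero
  have hI0 : (I : Ideal (𝓞 K)) ≠ ⊥ := nonZeroDivisors.coe_ne_zero I
  have hβ : β ≠ 0 := by
    rintro rfl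
    apply hI0
    have h0 : (I : Ideal (𝓞 K)) ^ p = 0 := by
      rw [← hI]; simp
    exact eq_zero_of_pow_eq_zero h0
  constructor
  · rw [← map_pow]
    have h1 : I ^ p = ⟨Ideal.span {β}, hI ▸ (I ^ p).2⟩ := Subtype.ext (by simp [hI])
    rw [h1, ClassGroup.mk0_eq_one_iff]
    exact ⟨β, rfl⟩
  · intro σ
    obtain ⟨γ, hγ⟩ := heig σ
    obtain ⟨y, x, hx, rfl⟩ := IsFractionRing.div_surjective (A := 𝓞 K) γ
    have hx0 : x ≠ 0 := nonZeroDivisors.ne_zero hx
    have hy0 : y ≠ 0 := by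
      rintro rfl
      have hσβ : σ (β : K) ≠ 0 := by
        simpa using hβ
      apply hσβ
      rw [hγ]
      simp [hp]
    have hint := class_eigen_int_eq σ (sqExp p K σ) p β x y hx0 hγ
    rw [clSigma_mk0, ← map_pow, ClassGroup.mk0_eq_mk0_iff]
    refine ⟨x, y, hx0, hy0, ?_⟩
    apply pow_left_injective hp
    simp only
    rw [coe_sigmaIdeal, mul_pow, mul_pow, Ideal.span_singleton_pow, Ideal.span_singleton_pow,
      ← Ideal.map_pow, SubmonoidClass.coe_pow, ← pow_mul, mul_comm _ p, pow_mul, ← hI,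
      Ideal.span_singleton_pow, Ideal.map_span, Set.image_singleton,
      Ideal.span_singleton_mul_span_singleton, Ideal.span_singleton_mul_span_singleton]
    congr 2
    rw [mul_comm, hint, mul_comm]

end Fermat.Agent.S14.Thaine.GlueP
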