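import Fermat.Agent.S14.Thaine.ClSigma

/-!
# Route T glue (G4): on an eigen-class of order dividing `p`, Thaine's operator is inversion
-/

set_option autoImplicit false

namespace Fermat.Agent.S14.Thaine.GlueP

open NumberField IsDedekindDomain
open scoped nonZeroDivisors

/-- `chi σ⁻¹ * chi σ = 1` in `ZMod p`. -/
theorem EOp_eq_inv_chi_inv_mul {p : ℕ} [Fact p.Prime] {K : Type*} [Field K] [NumberField K]
    [IsCyclotomicExtension {p} ℚ K] (σ : K ≃ₐ[ℚ] K) :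
    chi p K σ⁻¹ * chi p K σ = 1 := by
  unfold chi
  rw [← Units.val_mul, ← map_mul, inv_mul_cancel, map_one, Units.val_one]

/-- `sqExp σ⁻¹ * sqExp σ ≡ 1 mod p`. -/
theorem EOp_eq_inv_sqExp_mul_mod {p : ℕ} [Fact p.Prime] {K : Type*} [Field K] [NumberField K]
    [IsCyclotomicExtension {p} ℚ K] (σ : K ≃ₐ[ℚ] K) :
    (sqExp p K σ⁻¹ * sqExp p K σ) % p = 1 % p := by
  have : NeZero p := ⟨(Fact.out : p.Prime).ne_zero⟩
  rw [← ZMod.natCast_eq_natCast_iff']
  unfold sqExp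
  rw [Nat.cast_mul, ZMod.natCast_val, ZMod.natCast_val, ZMod.cast_id, ZMod.cast_id, ← mul_pow,
    EOp_eq_inv_chi_inv_mul, one_pow, Nat.cast_one]

/-- The Galois group of `ℚ(ζ_p)/ℚ` has `p - 1` elements. -/
theorem EOp_eq_inv_card_gal {p : ℕ} [Fact p.Prime] {K : Type*} [Field K] [NumberField K]
    [IsCyclotomicExtension {p} ℚ K] :
    Nat.card (K ≃ₐ[ℚ] K) = p - 1 := by
  have : NeZero p := ⟨(Fact.out : p.Prime).ne_zero⟩
  rw [Nat.card_congr (IsCyclotomicExtension.Rat.galEquivZMod p K).toEquiv,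
    Nat.card_eq_fintype_card, ZMod.card_units_eq_totient, Nat.totient_prime Fact.out]

/-- (G4) On an eigen-class of order dividing `p`, Thaine's operator is inversion. -/
theorem EOp_eq_inv {p : ℕ} [Fact p.Prime] {K : Type*} [Field K] [NumberField K]
    [IsCyclotomicExtension {p} ℚ K] (hp3 : 3 ≤ p) (c : ClassGroup (𝓞 K)) (hc : c ^ p = 1)
    (heig : ∀ σ : K ≃ₐ[ℚ] K, clSigma K σ c = c ^ sqExp p K σ) :
    EOp p K c = c⁻¹ := by
  have hp : p.Prime := Fact.out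
  have hfac : ∀ σ : K ≃ₐ[ℚ] K, (clSigma K σ⁻¹ c) ^ sqExp p K σ = c := by
    intro σ
    rw [heig σ⁻¹, ← pow_mul, pow_eq_pow_mod _ hc, EOp_eq_inv_sqExp_mul_mod σ,
      Nat.mod_eq_of_lt hp.one_lt, pow_one]
  have hE : EOp p K c = c ^ (p - 1) := by
    unfold EOp
    rw [MonoidHom.finsetProd_apply]
    simp only [MonoidHom.comp_apply, powMonoidHom_apply, MulEquiv.toMonoidHom_eq_coe,
      MonoidHom.coe_coe, hfac]
    rw [Finset.prod_const, Finset.card_univ, ← Nat.card_eq_fintype_card, EOp_eq_inv_card_gal (p := p)]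
  rw [hE, eq_inv_iff_mul_eq_one, ← pow_succ, Nat.sub_add_cancel hp.pos, hc]

end Fermat.Agent.S14.Thaine.GlueP
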