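import Mathlib

/-!
# Route T glue: the abstract group-theory step
-/

set_option autoImplicit false

namespace Fermat.Agent.S14.Thaine.Glue

/-- `E` maps everything into the `p`-th powers. -/
theorem eq_one_of_endo_aux_range {A : Type*} [CommGroup A] {p : ℕ}
    (E : A →* A) (S : Set A)
    (hS : Subgroup.closure S ⊔ (powMonoidHom p : A →* A).range = ⊤)
    (hE : ∀ s ∈ S, E s ∈ (powMonoidHom p : A →* A).range) (a : A) :
    E a ∈ (powMonoidHom p : A →* A).range := by
  have h1 : Subgroup.closure S ≤ ((powMonoidHom p : A →* A).range).comap E := by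
    rw [Subgroup.closure_le]
    intro s hs
    exact hE s hs
  have h2 : (powMonoidHom p : A →* A).range ≤ ((powMonoidHom p : A →* A).range).comap E := by
    rintro _ ⟨x, rfl⟩
    refine ⟨E x, ?_⟩
    simp [powMonoidHom_apply, map_pow]
  have h3 : (⊤ : Subgroup A) ≤ ((powMonoidHom p : A →* A).range).comap E := by
    rw [← hS]
    exact sup_le h1 h2
  exact h3 (Subgroup.mem_top a)

/-- `c` is a `p^k`-th power for every `k`. -/
theorem eq_one_of_endo_aux_pow {A : Type*} [CommGroup A] {p : ℕ}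
    (E : A →* A) (hr : ∀ a, E a ∈ (powMonoidHom p : A →* A).range)
    (c : A) (hEc : E c = c⁻¹) (k : ℕ) : ∃ d : A, c = d ^ (p ^ k) := by
  induction k with
  | zero => exact ⟨c, by simp⟩
  | succ k ih =>
    obtain ⟨d, hd⟩ := ih
    obtain ⟨e, he⟩ := hr d
    rw [powMonoidHom_apply] at he
    refine ⟨e⁻¹, ?_⟩
    have h1 : c⁻¹ = (e ^ p) ^ (p ^ k) := by
      rw [← hEc, he, ← map_pow, ← hd]
    rw [← inv_inv c, h1, inv_pow, pow_succ', pow_mul]

/-- If `E` maps a set of generators modulo `p`-th powers into the `p`-th powers, then an element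
`c` of order dividing `p` with `E c = c⁻¹` is trivial. -/
theorem eq_one_of_endo {A : Type*} [CommGroup A] [Finite A] {p : ℕ} (hp : p.Prime)
    (E : A →* A) (S : Set A)
    (hS : Subgroup.closure S ⊔ (powMonoidHom p : A →* A).range = ⊤)
    (hE : ∀ s ∈ S, E s ∈ (powMonoidHom p : A →* A).range)
    (c : A) (hc : c ^ p = 1) (hEc : E c = c⁻¹) : c = 1 := by
  have hr := eq_one_of_endo_aux_range E S hS hE
  set n := Nat.card A with hn
  have hn0 : n ≠ 0 := Nat.card_pos.ne'
  obtain ⟨d, hd⟩ := eq_one_of_endo_aux_pow E hr c hEc n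
  set m := n / p ^ n.factorization p with hm
  have hcop : Nat.Coprime p m := Nat.coprime_ordCompl hp hn0
  have hdvd : n ∣ p ^ n * m := by
    have h1 : p ^ n.factorization p * m = n := Nat.ordProj_mul_ordCompl_eq_self n p
    have h2 : n.factorization p ≤ n := (Nat.factorization_lt p hn0).le
    calc n = p ^ n.factorization p * m := h1.symm
      _ ∣ p ^ n * m := Nat.mul_dvd_mul_right (pow_dvd_pow p h2) m
  have hcm : c ^ m = 1 := by
    obtain ⟨t, ht⟩ := hdvd
    rw [hd, ← pow_mul, ht, pow_mul, hn, pow_card_eq_one', one_pow]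
  have h1 : orderOf c ∣ p := orderOf_dvd_of_pow_eq_one hc
  have h2 : orderOf c ∣ m := orderOf_dvd_of_pow_eq_one hcm
  have h3 : orderOf c ∣ 1 := by
    have := Nat.dvd_gcd h1 h2
    rwa [hcop.gcd_eq_one] at this
  exact orderOf_eq_one_iff.mp (Nat.dvd_one.mp h3)

end Fermat.Agent.S14.Thaine.Glue
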