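import Fermat.Agent.S14.Thaine.ClSigma

/-!
# Route T glue (G2b): an algebraic integer with all valuations divisible by `q`
generates the `q`-th power of an ideal.
-/

set_option autoImplicit false

namespace Fermat.Agent.S14.Thaine.GlueP

open NumberField IsDedekindDomain
open scoped nonZeroDivisors

/-- (G2b) A nonzero algebraic integer all of whose valuations are divisible by `p` generates
the `p`-th power of an ideal.  (Any number field, any `p > 0`.) -/
theorem exists_ideal_pow_eq_span (F : Type*) [Field F] [NumberField F] (q : ℕ) (hq : 0 < q)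
    (β : 𝓞 F) (hβ : β ≠ 0)
    (hval : ∀ v : HeightOneSpectrum (𝓞 F), ∃ k : ℕ,
      v.intValuation β = WithZero.exp (-((q : ℤ) * (k : ℤ)))) :
    ∃ I : Ideal (𝓞 F), I ≠ ⊥ ∧ Ideal.span {β} = I ^ q := by
  classical
  have hJ : (Ideal.span {β} : Ideal (𝓞 F)) ≠ 0 := by
    rw [Ne, Ideal.zero_eq_bot, Ideal.span_singleton_eq_bot]
    exact hβ
  -- the exponent of `v` in `(β)`
  set c : HeightOneSpectrum (𝓞 F) → ℕ := fun v =>
    (Associates.mk v.asIdeal).count (Associates.mk (Ideal.span {β} : Ideal (𝓞 F))).factors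
    with hc
  have hdiv : ∀ v, q * (c v / q) = c v := by
    intro v
    obtain ⟨k, hk⟩ := hval v
    rw [v.intValuation_if_neg hβ, WithZero.exp_inj, neg_inj] at hk
    have hk' : c v = q * k := by
      have : ((c v : ℕ) : ℤ) = ((q * k : ℕ) : ℤ) := by
        rw [Nat.cast_mul]
        exact hk
      exact_mod_cast this
    rw [hk', Nat.mul_div_cancel_left _ hq]
  have hfin : (Function.mulSupport fun v : HeightOneSpectrum (𝓞 F) =>
      v.asIdeal ^ (c v / q)).Finite := by
    refine Set.Finite.subset (Ideal.hasFiniteMulSupport hJ) ?_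
    intro v hv hv1
    apply hv
    have h1 : v.asIdeal ^ c v = 1 := hv1
    have h0 : c v = 0 := by
      by_contra hne
      have htop : v.asIdeal = ⊤ := by
        rw [← Ideal.one_eq_top]
        have := h1
        rw [Ideal.one_eq_top] at this
        rw [Ideal.one_eq_top]
        exact (Ideal.pow_eq_top_iff.mp this).resolve_right hne
      exact v.isPrime.ne_top htop
    show v.asIdeal ^ (c v / q) = 1
    rw [h0, Nat.zero_div, pow_zero]
  have hpow : Ideal.span {β} = (∏ᶠ v : HeightOneSpectrum (𝓞 F), v.asIdeal ^ (c v / q)) ^ q := by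
    rw [finprod_pow hfin]
    conv_lhs => rw [← Ideal.finprod_heightOneSpectrum_factorization hJ]
    refine finprod_congr fun v => ?_
    rw [← pow_mul, mul_comm, hdiv v]
    rfl
  refine ⟨∏ᶠ v : HeightOneSpectrum (𝓞 F), v.asIdeal ^ (c v / q), ?_, hpow⟩
  intro hI
  apply hJ
  rw [hpow, hI, Ideal.zero_eq_bot, ← Ideal.zero_eq_bot, zero_pow hq.ne']

end Fermat.Agent.S14.Thaine.GlueP
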