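import Fermat.Agent.S14.Thaine.ClSigma

/-!
# Route T glue (G2a): scaling the Kummer generator into the ring of integers
-/

set_option autoImplicit false

namespace Fermat.Agent.S14.Thaine.GlueP

open NumberField IsDedekindDomain
open scoped nonZeroDivisors

/-- (G2a) Scale the Kummer generator by a `p`-th power into `𝓞 K`; all properties persist,
and the valuation condition becomes a statement about `intValuation` with natural exponents. -/
theorem exists_integral_scaling {p : ℕ} [Fact p.Prime] {K : Type*} [Field K] [NumberField K]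
    [IsCyclotomicExtension {p} ℚ K] (β₀ : K) (h0 : β₀ ≠ 0) (hnp : ¬ ∃ γ : K, β₀ = γ ^ p)
    (heig : ∀ σ : K ≃ₐ[ℚ] K, ∃ γ : K, σ β₀ = β₀ ^ sqExp p K σ * γ ^ p)
    (hval : ∀ v : HeightOneSpectrum (𝓞 K), ∃ k : ℤ,
      v.valuation K β₀ = WithZero.exp ((p : ℤ) * k))
    (hloc : ∀ v : HeightOneSpectrum (𝓞 K), ((p : ℕ) : 𝓞 K) ∈ v.asIdeal →
        ∃ x : K, v.valuation K (β₀ * x ^ p - 1) ≤ WithZero.exp (-3 : ℤ)) :
    ∃ β : 𝓞 K, β ≠ 0 ∧ (¬ ∃ γ : K, (β : K) = γ ^ p) ∧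
      (∀ σ : K ≃ₐ[ℚ] K, ∃ γ : K, σ (β : K) = (β : K) ^ sqExp p K σ * γ ^ p) ∧
      (∀ v : HeightOneSpectrum (𝓞 K), ∃ k : ℕ,
        v.intValuation β = WithZero.exp (-((p : ℤ) * (k : ℤ)))) ∧
      (∀ v : HeightOneSpectrum (𝓞 K), ((p : ℕ) : 𝓞 K) ∈ v.asIdeal →
        ∃ x : K, v.valuation K ((β : K) * x ^ p - 1) ≤ WithZero.exp (-3 : ℤ)) := by
  have hp : p.Prime := Fact.out
  have hp1 : p - 1 + 1 = p := Nat.sub_add_cancel hp.one_le
  obtain ⟨a, b, hb, hab⟩ := IsFractionRing.div_surjective (A := 𝓞 K) β₀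
  have hb0 : b ≠ 0 := nonZeroDivisors.ne_zero hb
  have hbK : (algebraMap (𝓞 K) K b) ≠ 0 := by
    simpa using hb0
  have hβ : (algebraMap (𝓞 K) K (a * b ^ (p - 1))) = β₀ * (algebraMap (𝓞 K) K b) ^ p := by
    rw [← hab, map_mul, map_pow]
    conv_rhs => rw [← hp1, pow_succ]
    field_simp
  have hβ0 : (algebraMap (𝓞 K) K (a * b ^ (p - 1))) ≠ 0 := by
    rw [hβ]
    exact mul_ne_zero h0 (pow_ne_zero _ hbK)
  refine ⟨a * b ^ (p - 1), ?_, ?_, ?_, ?_, ?_⟩
  · intro h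
    apply hβ0
    rw [h, map_zero]
  · rintro ⟨γ, hγ⟩
    apply hnp
    refine ⟨γ / algebraMap (𝓞 K) K b, ?_⟩
    change algebraMap (𝓞 K) K (a * b ^ (p - 1)) = γ ^ p at hγ
    rw [div_pow, ← hγ, hβ]
    field_simp
  · intro σ
    obtain ⟨γ, hγ⟩ := heig σ
    refine ⟨γ * σ (algebraMap (𝓞 K) K b) / (algebraMap (𝓞 K) K b) ^ sqExp p K σ, ?_⟩
    change σ (algebraMap (𝓞 K) K (a * b ^ (p - 1))) =
      (algebraMap (𝓞 K) K (a * b ^ (p - 1))) ^ sqExp p K σ * _
    rw [hβ, map_mul, map_pow, hγ, mul_pow β₀, pow_right_comm _ p, div_pow, mul_pow γ]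
    have hC : ((algebraMap (𝓞 K) K b) ^ sqExp p K σ) ^ p ≠ 0 :=
      pow_ne_zero _ (pow_ne_zero _ hbK)
    rw [mul_div_assoc', eq_div_iff hC]
    ring
  · intro v
    obtain ⟨k, hk⟩ := hval v
    have h1 : v.valuation K (algebraMap (𝓞 K) K (a * b ^ (p - 1))) =
        v.intValuation (a * b ^ (p - 1)) := v.valuation_of_algebraMap _
    have h2 : v.valuation K (algebraMap (𝓞 K) K b) = v.intValuation b :=
      v.valuation_of_algebraMap _
    have h3 := v.intValuation_if_neg hb0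
    set m : ℕ := (Associates.mk v.asIdeal).count (Associates.mk (Ideal.span {b})).factors
    have h4 : v.intValuation (a * b ^ (p - 1)) = WithZero.exp ((p : ℤ) * (k - m)) := by
      rw [← h1, hβ, map_mul, map_pow, hk, h2, h3, ← WithZero.exp_nsmul, ← WithZero.exp_add]
      congr 1
      simp only [nsmul_eq_mul]
      ring
    have h5 : v.intValuation (a * b ^ (p - 1)) ≤ 1 := v.intValuation_le_one _
    rw [h4, ← WithZero.exp_zero, WithZero.exp_le_exp] at h5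
    have hp0 : (0 : ℤ) < p := by exact_mod_cast hp.pos
    have h6 : k - m ≤ 0 := by
      by_contra hc
      have := mul_pos hp0 (not_le.mp hc)
      omega
    refine ⟨(m - k).toNat, ?_⟩
    rw [h4]
    congr 1
    have : ((m - k).toNat : ℤ) = m - k := Int.toNat_of_nonneg (by omega)
    rw [this]
    ring
  · intro v hv
    obtain ⟨x, hx⟩ := hloc v hv
    refine ⟨x / algebraMap (𝓞 K) K b, ?_⟩
    change v.valuation K (algebraMap (𝓞 K) K (a * b ^ (p - 1)) * _ - 1) ≤ _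
    have : algebraMap (𝓞 K) K (a * b ^ (p - 1)) * (x / algebraMap (𝓞 K) K b) ^ p - 1 =
        β₀ * x ^ p - 1 := by
      rw [hβ, div_pow, mul_assoc, mul_div_assoc', mul_div_cancel_left₀ _ (pow_ne_zero _ hbK)]
    rw [this]
    exact hx

end Fermat.Agent.S14.Thaine.GlueP
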