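import Fermat.Agent.S14.Thaine.ClSigma

/-!
# Route T glue: two small facts (a prime above `p`; the class group for `p = 3`)
-/

set_option autoImplicit false

namespace Fermat.Agent.S14.Thaine.GlueP

open NumberField IsDedekindDomain
open scoped nonZeroDivisors

/-- (G6) There is a prime of `𝓞 K` above `p`. -/
theorem exists_prime_above_p {p : ℕ} [Fact p.Prime] {K : Type*} [Field K] [NumberField K]
    [IsCyclotomicExtension {p} ℚ K] :
    ∃ 𝔭 : Ideal (𝓞 K), 𝔭.IsPrime ∧ ((p : ℕ) : 𝓞 K) ∈ 𝔭 := by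
  have hζ : IsPrimitiveRoot (IsCyclotomicExtension.zeta p ℚ K) p :=
    IsCyclotomicExtension.zeta_spec p ℚ K
  refine ⟨Ideal.span {hζ.toInteger - 1},
    IsCyclotomicExtension.Rat.isPrime_span_zeta_sub_one' p hζ, ?_⟩
  have hK' : IsCyclotomicExtension {p ^ (0 + 1)} ℚ K := by
    rw [zero_add, pow_one]; infer_instance
  have hζ' : IsPrimitiveRoot (IsCyclotomicExtension.zeta p ℚ K) (p ^ (0 + 1)) := by
    rw [zero_add, pow_one]; exact hζ
  exact IsCyclotomicExtension.Rat.p_mem_span_zeta_sub_one p 0 hζ'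

/-- (G7) For `p = 3` the class group of `K = ℚ(ζ₃)` is trivial. -/
theorem classGroup_trivial_of_three {p : ℕ} [Fact p.Prime] {K : Type*} [Field K] [NumberField K]
    [IsCyclotomicExtension {p} ℚ K] (hp : p = 3) (c : ClassGroup (𝓞 K)) : c = 1 := by
  subst hp
  have : IsPrincipalIdealRing (𝓞 K) := IsCyclotomicExtension.Rat.three_pid K
  obtain ⟨I, rfl⟩ := ClassGroup.mk0_surjective c
  rw [ClassGroup.mk0_eq_one_iff]
  exact IsPrincipalIdealRing.principal _

end Fermat.Agent.S14.Thaine.GlueP
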