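import Fermat.Agent.S14.Thaine.ClSigma

/-!
# Route T glue (G5c): the unit `ε` is congruent to a rational integer modulo `𝔭 ^ 3`
-/

set_option autoImplicit false

namespace Fermat.Agent.S14.Thaine.GlueP

open NumberField IsDedekindDomain
open scoped nonZeroDivisors

/-- In `ℤᵐ⁰`, `x < 1` implies `x ≤ exp (-1)`. -/
theorem unit_local_le_exp_of_lt_one {x : WithZero (Multiplicative ℤ)} (h : x < 1) :
    x ≤ WithZero.exp (-1 : ℤ) := by
  by_cases hx : x = 0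
  · simp [hx]
  · rw [← WithZero.exp_log hx] at h ⊢
    rw [← WithZero.exp_zero, WithZero.exp_lt_exp] at h
    rw [WithZero.exp_le_exp]
    omega

section

variable {p : ℕ} [Fact p.Prime] {K : Type*} [Field K] [NumberField K]
  [IsCyclotomicExtension {p} ℚ K]

/-- The unique prime above `p` is generated by `ζ - 1`. -/
theorem unit_local_eq_span (𝔭 : Ideal (𝓞 K)) (h𝔭 : 𝔭.IsPrime)
    (hp𝔭 : ((p : ℕ) : 𝓞 K) ∈ 𝔭) :
    𝔭 = Ideal.span {(IsCyclotomicExtension.zeta_spec p ℚ K).toInteger - 1} := by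
  have : 𝔭.LiesOver (Ideal.span {(p : ℤ)}) := by
    rw [Ideal.liesOver_iff]
    refine Ideal.IsMaximal.eq_of_le (Int.ideal_span_isMaximal_of_prime p)
      Ideal.IsPrime.ne_top' ?_
    rw [Ideal.span_singleton_le_iff_mem, Ideal.under, Ideal.mem_comap, algebraMap_int_eq,
      map_natCast]
    exact hp𝔭
  exact IsCyclotomicExtension.Rat.eq_span_zeta_sub_one_of_liesOver' p K _ 𝔭

/-- Every algebraic integer of `K` is congruent to a rational integer modulo the prime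
above `p`. -/
theorem unit_local_exists_int (𝔭 : Ideal (𝓞 K)) (h𝔭 : 𝔭.IsPrime)
    (hp𝔭 : ((p : ℕ) : 𝓞 K) ∈ 𝔭) (a : 𝓞 K) :
    ∃ n : ℤ, a - (n : 𝓞 K) ∈ 𝔭 := by
  have hp : p.Prime := Fact.out
  have hcard : Nat.card (𝓞 K ⧸ 𝔭) = p := by
    rw [← Submodule.cardQuot_apply, ← Ideal.absNorm_apply, unit_local_eq_span 𝔭 h𝔭 hp𝔭]
    have hK : IsCyclotomicExtension {p ^ (0 + 1)} ℚ K := by
      rw [zero_add, pow_one]; infer_instance
    have hζ : IsPrimitiveRoot (IsCyclotomicExtension.zeta p ℚ K) (p ^ (0 + 1)) := by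
      rw [zero_add, pow_one]; exact IsCyclotomicExtension.zeta_spec p ℚ K
    exact IsCyclotomicExtension.Rat.absNorm_span_zeta_sub_one p 0 hζ
  have : Finite (𝓞 K ⧸ 𝔭) := Nat.finite_of_card_ne_zero (by rw [hcard]; exact hp.ne_zero)
  have : Nontrivial (𝓞 K ⧸ 𝔭) := Ideal.Quotient.nontrivial_iff.mpr h𝔭.ne_top
  have : CharP (𝓞 K ⧸ 𝔭) p := by
    rw [CharP.charP_iff_prime_eq_zero hp]
    have : ((p : 𝓞 K) : 𝓞 K ⧸ 𝔭) = 0 := Ideal.Quotient.eq_zero_iff_mem.mpr hp𝔭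
    simpa using this
  have hinj : Function.Injective (ZMod.castHom (dvd_refl p) (𝓞 K ⧸ 𝔭)) :=
    RingHom.injective _
  have hbij := hinj.bijective_of_nat_card_le (by rw [hcard, Nat.card_zmod])
  obtain ⟨z, hz⟩ := hbij.2 (Ideal.Quotient.mk 𝔭 a)
  obtain ⟨n, rfl⟩ := ZMod.intCast_surjective z
  refine ⟨n, ?_⟩
  rw [← Ideal.Quotient.eq_zero_iff_mem, map_sub, ← hz]
  simp

/-- `p`-th roots of unity are congruent to `1` modulo the prime above `p`. -/
theorem unit_local_root_sub_one (𝔭 : Ideal (𝓞 K)) (h𝔭 : 𝔭.IsPrime)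
    (hp𝔭 : ((p : ℕ) : 𝓞 K) ∈ 𝔭) (h𝔭0 : 𝔭 ≠ ⊥) (η : K) (hη : η ^ p = 1) :
    (HeightOneSpectrum.mk 𝔭 h𝔭 h𝔭0).valuation K (η - 1) < 1 := by
  have hp : p.Prime := Fact.out
  have : NeZero p := ⟨hp.ne_zero⟩
  have hζ := IsCyclotomicExtension.zeta_spec p ℚ K
  obtain ⟨k, -, rfl⟩ := hζ.eq_pow_of_pow_eq_one hη
  have hmem : hζ.toInteger ^ k - 1 ∈ 𝔭 := by
    have h1 : hζ.toInteger - 1 ∈ 𝔭 := by
      rw [unit_local_eq_span 𝔭 h𝔭 hp𝔭]
      exact Ideal.subset_span rfl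
    obtain ⟨c, hc⟩ := sub_one_dvd_pow_sub_one (hζ.toInteger) k
    rw [hc]
    exact Ideal.mul_mem_right _ _ h1
  have := ((HeightOneSpectrum.mk 𝔭 h𝔭 h𝔭0).valuation_lt_one_iff_mem (K := K) _).mpr hmem
  have hcoe : algebraMap (𝓞 K) K (hζ.toInteger ^ k - 1) =
      IsCyclotomicExtension.zeta p ℚ K ^ k - 1 := by
    rw [map_sub, map_pow, map_one]; rfl
  rw [← hcoe]
  exact this

set_option linter.unusedVariables false in
/-- (G5c) The unit `ε` is congruent to a rational integer modulo `𝔭 ^ 3`. -/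
theorem unit_local (hp3 : 3 ≤ p) (𝔭 : Ideal (𝓞 K)) (h𝔭 : 𝔭.IsPrime)
    (hp𝔭 : ((p : ℕ) : 𝓞 K) ∈ 𝔭)
    (β : 𝓞 K) (ε : (𝓞 K)ˣ) (b : 𝓞 K) (hb : b ≠ 0) (hβ : β = (ε : 𝓞 K) * b ^ p)
    (hloc : ∀ v : HeightOneSpectrum (𝓞 K), ((p : ℕ) : 𝓞 K) ∈ v.asIdeal →
        ∃ x : K, v.valuation K ((β : K) * x ^ p - 1) ≤ WithZero.exp (-3 : ℤ)) :
    ∃ n : ℤ, ((ε : 𝓞 K) - (n : 𝓞 K)) ∈ 𝔭 ^ 3 := by
  have hp : p.Prime := Fact.out
  have h𝔭0 : 𝔭 ≠ ⊥ := by
    rintro rfl
    exact (Nat.cast_ne_zero.mpr hp.ne_zero) ((Ideal.mem_bot).mp hp𝔭)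
  obtain ⟨x, hx⟩ := hloc ⟨𝔭, h𝔭, h𝔭0⟩ hp𝔭
  set v : HeightOneSpectrum (𝓞 K) := ⟨𝔭, h𝔭, h𝔭0⟩ with hv
  set e : K := ((ε : 𝓞 K) : K) with he
  set y : K := (b : K) * x with hy
  have hβ' : (β : K) * x ^ p = e * y ^ p := by
    rw [hβ, he, hy]; push_cast; ring
  rw [hβ'] at hx
  have h31 : WithZero.exp (-3 : ℤ) < (1 : WithZero (Multiplicative ℤ)) := by
    rw [← WithZero.exp_zero, WithZero.exp_lt_exp]; norm_num
  have hlt : v.valuation K (e * y ^ p - 1) < 1 := lt_of_le_of_lt hx h31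
  have h1 : v.valuation K (e * y ^ p) = 1 := by
    have := Valuation.map_eq_of_sub_lt (v.valuation K) (x := 1) (y := e * y ^ p)
      (by simpa using hlt)
    simpa using this
  have hve : v.valuation K e = 1 := by
    rw [he]
    refine (HeightOneSpectrum.valuation_eq_one_iff_notMem (K := K) (v := v)).mpr ?_
    intro hmem
    exact h𝔭.ne_top (Ideal.eq_top_of_isUnit_mem _ hmem ε.isUnit)
  have hvy : v.valuation K y = 1 := by
    rw [map_mul, hve, one_mul, map_pow] at h1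
    exact (pow_eq_one_iff_left hp.ne_zero).mp h1
  have hy0 : y ≠ 0 := by
    intro h0
    rw [h0, map_zero] at hvy
    exact zero_ne_one hvy
  set t : K := y⁻¹ with ht
  have hvt : v.valuation K t = 1 := by rw [ht, map_inv₀, hvy, inv_one]
  have hvet : v.valuation K (e - t ^ p) ≤ WithZero.exp (-3 : ℤ) := by
    have : e - t ^ p = t ^ p * (e * y ^ p - 1) := by
      rw [ht, inv_pow, mul_sub, mul_comm e, ← mul_assoc, inv_mul_cancel₀ (pow_ne_zero p hy0),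
        one_mul, mul_one]
    rw [this, map_mul, map_pow, hvt, one_pow, one_mul]
    exact hx
  -- Step 2
  obtain ⟨a, ha⟩ := v.exists_valuation_sub_lt_of_integer (K := K) (x := t) (le_of_eq hvt) 1
  obtain ⟨n, hn⟩ := unit_local_exists_int 𝔭 h𝔭 hp𝔭 a
  have hvan : v.valuation K (algebraMap (𝓞 K) K (a - (n : 𝓞 K))) < 1 :=
    (v.valuation_lt_one_iff_mem (K := K) _).mpr hn
  have hvtn : v.valuation K (t - (n : K)) < 1 := by
    have : t - (n : K) = algebraMap (𝓞 K) K (a - (n : 𝓞 K)) - (algebraMap (𝓞 K) K a - t) := by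
      simp
    rw [this]
    exact lt_of_le_of_lt (Valuation.map_sub _ _ _) (max_lt hvan (by simpa using ha))
  have hvn : v.valuation K (n : K) ≤ 1 := by
    have := v.valuation_le_one (K := K) (n : 𝓞 K)
    simpa using this
  -- Step 3
  have hprod : t ^ p - (n : K) ^ p = ∏ η ∈ Polynomial.nthRootsFinset p (1 : K), (t - η * n) :=
    (IsCyclotomicExtension.zeta_spec p ℚ K).pow_sub_pow_eq_prod_sub_mul t (n : K) hp.pos
  have hfac : ∀ η ∈ Polynomial.nthRootsFinset p (1 : K),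
      v.valuation K (t - η * n) ≤ WithZero.exp (-1 : ℤ) := by
    intro η hη
    have hη1 : η ^ p = 1 := (Polynomial.mem_nthRootsFinset hp.pos 1).mp hη
    have hη2 := unit_local_root_sub_one 𝔭 h𝔭 hp𝔭 h𝔭0 η hη1
    apply unit_local_le_exp_of_lt_one
    have : t - η * n = (t - n) - (η - 1) * n := by ring
    rw [this]
    refine lt_of_le_of_lt (Valuation.map_sub _ _ _) (max_lt hvtn ?_)
    rw [map_mul]
    calc v.valuation K (η - 1) * v.valuation K (n : K)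
        ≤ v.valuation K (η - 1) * 1 := by gcongr
      _ < 1 := by rw [mul_one]; exact hη2
  have hvtn' : v.valuation K (t ^ p - (n : K) ^ p) ≤ WithZero.exp (-3 : ℤ) := by
    rw [hprod, map_prod]
    calc ∏ η ∈ Polynomial.nthRootsFinset p (1 : K), v.valuation K (t - η * n)
        ≤ ∏ _η ∈ Polynomial.nthRootsFinset p (1 : K), WithZero.exp (-1 : ℤ) :=
          Finset.prod_le_prod' hfac
      _ = WithZero.exp (-1 : ℤ) ^ p := by
          rw [Finset.prod_const, (IsCyclotomicExtension.zeta_spec p ℚ K).card_nthRootsFinset]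
      _ = WithZero.exp (p • (-1 : ℤ)) := (WithZero.exp_nsmul p (-1 : ℤ)).symm
      _ ≤ WithZero.exp (-3 : ℤ) := by
          rw [WithZero.exp_le_exp]
          simp
          omega
  -- Step 4
  have hfin : v.valuation K (e - (n : K) ^ p) ≤ WithZero.exp (-3 : ℤ) := by
    have : e - (n : K) ^ p = (e - t ^ p) + (t ^ p - (n : K) ^ p) := by ring
    rw [this]
    exact Valuation.map_add_le _ hvet hvtn'
  refine ⟨n ^ p, ?_⟩
  have hcast : e - (n : K) ^ p = algebraMap (𝓞 K) K ((ε : 𝓞 K) - ((n ^ p : ℤ) : 𝓞 K)) := by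
    rw [he]; simp
  rw [hcast, HeightOneSpectrum.valuation_of_algebraMap] at hfin
  exact (v.intValuation_le_pow_iff_mem _ 3).mp (by simpa using hfin)

end

end Fermat.Agent.S14.Thaine.GlueP
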