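import Fermat.Agent.S14.Thaine.ClSigma

/-!
# Route T glue (G5a, G5b): splitting off a unit from the Kummer generator

* `exists_unit_mul_pow` (G5a): if `(β) = I ^ p` with `I` principal then `β = ε * b ^ p`
  with `ε` a unit.
* `unit_eigen` (G5b): the unit `ε` inherits the eigen-property modulo `p`-th powers of units.
-/

set_option autoImplicit false

namespace Fermat.Agent.S14.Thaine.GlueP

open NumberField IsDedekindDomain
open scoped nonZeroDivisors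

/-- (G5a) If `I` is principal then `β = ε * b ^ p` with `ε` a unit. -/
theorem exists_unit_mul_pow {p : ℕ} [Fact p.Prime] {K : Type*} [Field K] [NumberField K]
    [IsCyclotomicExtension {p} ℚ K] (β : 𝓞 K) (hβ : β ≠ 0) (I : (Ideal (𝓞 K))⁰)
    (hI : Ideal.span {β} = (I : Ideal (𝓞 K)) ^ p) (hc : ClassGroup.mk0 I = 1) :
    ∃ (ε : (𝓞 K)ˣ) (b : 𝓞 K), b ≠ 0 ∧ β = (ε : 𝓞 K) * b ^ p := by
  have _ := hβ
  have hprinc : (I : Ideal (𝓞 K)).IsPrincipal := (ClassGroup.mk0_eq_one_iff I.2).mp hc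
  obtain ⟨b, hb⟩ := hprinc.principal
  have hb' : (I : Ideal (𝓞 K)) = Ideal.span {b} := hb
  have hb0 : b ≠ 0 := by
    rintro rfl
    have hbot : (I : Ideal (𝓞 K)) = ⊥ := by rw [hb']; simp
    exact nonZeroDivisors.coe_ne_zero I hbot
  rw [hb', Ideal.span_singleton_pow] at hI
  have hassoc : Associated (b ^ p) β :=
    (Ideal.span_singleton_eq_span_singleton.mp hI).symm
  obtain ⟨ε, hε⟩ := hassoc
  exact ⟨ε, b, hb0, by rw [← hε, mul_comm]⟩

/-- A helper for `unit_eigen`: an element of `K` whose `q`-th power (`0 < q`) is the image of a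
unit of `𝓞 K` is itself the image of a unit of `𝓞 K`. -/
theorem unit_eigen_exists_unit_of_pow {F : Type*} [Field F] [NumberField F] {q : ℕ} (hq : 0 < q)
    (t : F) (u : (𝓞 F)ˣ) (ht : t ^ q = ((u : 𝓞 F) : F)) :
    ∃ w : (𝓞 F)ˣ, ((w : 𝓞 F) : F) = t := by
  have hint : IsIntegral ℤ t := by
    refine IsIntegral.of_pow hq ?_
    rw [ht]
    exact RingOfIntegers.isIntegral_coe (u : 𝓞 F)
  let x : 𝓞 F := ⟨t, hint⟩
  have hx : (x : F) = t := rfl
  have hxu : x ^ q = (u : 𝓞 F) := by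
    apply RingOfIntegers.ext
    rw [← ht, ← hx]
    exact map_pow (algebraMap (𝓞 F) F) x q
  have hunit : IsUnit x := by
    have h1 : IsUnit (x ^ q) := by rw [hxu]; exact u.isUnit
    exact (isUnit_pow_iff hq.ne').mp h1
  obtain ⟨w, hw⟩ := hunit
  exact ⟨w, by rw [hw, hx]⟩

/-- (G5b) The unit `ε` inherits the eigen-property modulo `p`-th powers of units. -/
theorem unit_eigen {p : ℕ} [Fact p.Prime] {K : Type*} [Field K] [NumberField K]
    [IsCyclotomicExtension {p} ℚ K] (β : 𝓞 K) (ε : (𝓞 K)ˣ) (b : 𝓞 K) (hb : b ≠ 0)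
    (hβ : β = (ε : 𝓞 K) * b ^ p)
    (heig : ∀ σ : K ≃ₐ[ℚ] K, ∃ γ : K, σ (β : K) = (β : K) ^ sqExp p K σ * γ ^ p) :
    ∀ σ : K ≃ₐ[ℚ] K, ∃ w : (𝓞 K)ˣ,
      σ ((ε : 𝓞 K) : K) = ((ε : 𝓞 K) : K) ^ sqExp p K σ * ((w : 𝓞 K) : K) ^ p := by
  intro σ
  obtain ⟨γ, hγ⟩ := heig σ
  have hp : 0 < p := (Fact.out : p.Prime).pos
  set n : ℕ := sqExp p K σ with hn
  set e : K := ((ε : 𝓞 K) : K) with he
  set bK : K := (b : K) with hbK
  have hbK0 : bK ≠ 0 := by
    rw [hbK]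
    exact fun h => hb (RingOfIntegers.coe_eq_zero_iff.mp h)
  have he0 : e ≠ 0 := by
    rw [he]
    exact fun h => ε.ne_zero (RingOfIntegers.coe_eq_zero_iff.mp h)
  have hσb0 : σ bK ≠ 0 := fun h => hbK0 ((map_eq_zero σ).mp h)
  have hβK : (β : K) = e * bK ^ p := by
    rw [hβ, he, hbK]
    simp only [RingOfIntegers.coe_eq_algebraMap, map_mul, map_pow]
  rw [hβK, map_mul, map_pow] at hγ
  -- the candidate `t`
  set t : K := bK ^ n * γ / σ bK with ht
  have hkey : σ e = e ^ n * t ^ p := by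
    have h1 : σ e * σ bK ^ p = e ^ n * (bK ^ n * γ) ^ p := by
      rw [hγ]; ring
    rw [ht, div_pow, mul_div_assoc', eq_div_iff (pow_ne_zero p hσb0)]
    exact h1
  -- `t ^ p` is the image of a unit
  let σε : (𝓞 K)ˣ := Units.map (RingOfIntegers.mapRingEquiv (σ : K ≃+* K)).toMonoidHom ε
  have hσε : (((σε : (𝓞 K)ˣ) : 𝓞 K) : K) = σ e := rfl
  have htp : t ^ p = (((σε * (ε ^ n)⁻¹ : (𝓞 K)ˣ) : 𝓞 K) : K) := by
    have h2 : ((((ε ^ n)⁻¹ : (𝓞 K)ˣ) : 𝓞 K) : K) = (e ^ n)⁻¹ := by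
      apply eq_inv_of_mul_eq_one_left
      rw [he]
      simp only [RingOfIntegers.coe_eq_algebraMap]
      rw [← map_pow, ← map_mul, ← Units.val_pow_eq_pow_val, ← Units.val_mul,
        inv_mul_cancel, Units.val_one, map_one]
    have h3 : (((σε * (ε ^ n)⁻¹ : (𝓞 K)ˣ) : 𝓞 K) : K) = σ e * (e ^ n)⁻¹ := by
      rw [← h2, ← hσε, Units.val_mul]
      simp only [RingOfIntegers.coe_eq_algebraMap, map_mul]
    rw [h3, hkey]
    field_simp
  obtain ⟨w, hw⟩ := unit_eigen_exists_unit_of_pow hp t _ htp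
  exact ⟨w, by rw [hw]; exact hkey⟩

end Fermat.Agent.S14.Thaine.GlueP
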