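import Fermat.Agent.S14.Thaine.ClSigma
import Fermat.Agent.S14.Thaine.Glue.Scaling
import Fermat.Agent.S14.Thaine.Glue.IdealRoot
import Fermat.Agent.S14.Thaine.Glue.ClassEigen
import Fermat.Agent.S14.Thaine.Glue.EOpInv
import Fermat.Agent.S14.Thaine.Glue.UnitSplit
import Fermat.Agent.S14.Thaine.Glue.Small
import Fermat.Agent.S14.Thaine.Glue.UnitLocal

/-!
# Route T glue: statements (all proved; the proofs live in the files imported above)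
-/

set_option autoImplicit false

namespace Fermat.Agent.S14.Thaine.Glue

open NumberField IsDedekindDomain
open scoped nonZeroDivisors

section

variable {p : ℕ} [Fact p.Prime] {K : Type*} [Field K] [NumberField K]
  [IsCyclotomicExtension {p} ℚ K]

/-- (G2a) Scale the Kummer generator by a `p`-th power into `𝓞 K`; all properties persist,
and the valuation condition becomes a statement about `intValuation` with natural exponents. -/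
theorem exists_integral_scaling (β₀ : K) (h0 : β₀ ≠ 0) (hnp : ¬ ∃ γ : K, β₀ = γ ^ p)
    (heig : ∀ σ : K ≃ₐ[ℚ] K, ∃ γ : K, σ β₀ = β₀ ^ sqExp p K σ * γ ^ p)
    (hval : ∀ v : HeightOneSpectrum (𝓞 K), ∃ k : ℤ,
      v.valuation K β₀ = WithZero.exp ((p : ℤ) * k))
    (hloc : ∀ v : HeightOneSpectrum (𝓞 K), ((p : ℕ) : 𝓞 K) ∈ v.asIdeal →
        ∃ x : K, v.valuation K (β₀ * x ^ p - 1) ≤ WithZero.exp (-3 : ℤ)) :
    ∃ β : 𝓞 K, β ≠ 0 ∧ (¬ ∃ γ : K, (β : K) = γ ^ p) ∧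
      (∀ σ : K ≃ₐ[ℚ] K, ∃ γ : K, σ (β : K) = (β : K) ^ sqExp p K σ * γ ^ p) ∧
      (∀ v : HeightOneSpectrum (𝓞 K), ∃ k : ℕ,
        v.intValuation β = WithZero.exp (-((p : ℤ) * (k : ℤ)))) ∧
      (∀ v : HeightOneSpectrum (𝓞 K), ((p : ℕ) : 𝓞 K) ∈ v.asIdeal →
        ∃ x : K, v.valuation K ((β : K) * x ^ p - 1) ≤ WithZero.exp (-3 : ℤ)) :=
  GlueP.exists_integral_scaling β₀ h0 hnp heig hval hloc

/-- (G2b) A nonzero algebraic integer all of whose valuations are divisible by `p` generates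
the `p`-th power of an ideal.  (Any number field, any `p > 0`.) -/
theorem exists_ideal_pow_eq_span (F : Type*) [Field F] [NumberField F] (q : ℕ) (hq : 0 < q)
    (β : 𝓞 F) (hβ : β ≠ 0)
    (hval : ∀ v : HeightOneSpectrum (𝓞 F), ∃ k : ℕ,
      v.intValuation β = WithZero.exp (-((q : ℤ) * (k : ℤ)))) :
    ∃ I : Ideal (𝓞 F), I ≠ ⊥ ∧ Ideal.span {β} = I ^ q :=
  GlueP.exists_ideal_pow_eq_span F q hq β hβ hval

/-- (G2) Make the Kummer generator integral and extract the ideal `I` with `(β) = I ^ p`. -/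
theorem exists_integral_data (β₀ : K) (h0 : β₀ ≠ 0) (hnp : ¬ ∃ γ : K, β₀ = γ ^ p)
    (heig : ∀ σ : K ≃ₐ[ℚ] K, ∃ γ : K, σ β₀ = β₀ ^ sqExp p K σ * γ ^ p)
    (hval : ∀ v : HeightOneSpectrum (𝓞 K), ∃ k : ℤ,
      v.valuation K β₀ = WithZero.exp ((p : ℤ) * k))
    (hloc : ∀ v : HeightOneSpectrum (𝓞 K), ((p : ℕ) : 𝓞 K) ∈ v.asIdeal →
        ∃ x : K, v.valuation K (β₀ * x ^ p - 1) ≤ WithZero.exp (-3 : ℤ)) :
    ∃ (β : 𝓞 K) (I : Ideal (𝓞 K)), β ≠ 0 ∧ I ≠ ⊥ ∧ Ideal.span {β} = I ^ p ∧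
      (¬ ∃ γ : K, (β : K) = γ ^ p) ∧
      (∀ σ : K ≃ₐ[ℚ] K, ∃ γ : K, σ (β : K) = (β : K) ^ sqExp p K σ * γ ^ p) ∧
      (∀ v : HeightOneSpectrum (𝓞 K), ((p : ℕ) : 𝓞 K) ∈ v.asIdeal →
        ∃ x : K, v.valuation K ((β : K) * x ^ p - 1) ≤ WithZero.exp (-3 : ℤ)) := by
  obtain ⟨β, hβ0, hnp', heig', hval', hloc'⟩ :=
    exists_integral_scaling β₀ h0 hnp heig hval hloc
  obtain ⟨I, hI0, hI⟩ :=
    exists_ideal_pow_eq_span K p (Fact.out : p.Prime).pos β hβ0 hval'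
  exact ⟨β, I, hβ0, hI0, hI, hnp', heig', hloc'⟩

/-- (G3) The class of `I` is killed by `p` and lies in the `ω²`-eigenspace. -/
theorem class_eigen (β : 𝓞 K) (I : (Ideal (𝓞 K))⁰)
    (hI : Ideal.span {β} = (I : Ideal (𝓞 K)) ^ p)
    (heig : ∀ σ : K ≃ₐ[ℚ] K, ∃ γ : K, σ (β : K) = (β : K) ^ sqExp p K σ * γ ^ p) :
    (ClassGroup.mk0 I) ^ p = 1 ∧
      ∀ σ : K ≃ₐ[ℚ] K, clSigma K σ (ClassGroup.mk0 I) = (ClassGroup.mk0 I) ^ sqExp p K σ :=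
  GlueP.class_eigen β I hI heig

/-- (G4) On an eigen-class of order dividing `p`, Thaine's operator is inversion. -/
theorem EOp_eq_inv (hp3 : 3 ≤ p) (c : ClassGroup (𝓞 K)) (hc : c ^ p = 1)
    (heig : ∀ σ : K ≃ₐ[ℚ] K, clSigma K σ c = c ^ sqExp p K σ) :
    EOp p K c = c⁻¹ :=
  GlueP.EOp_eq_inv hp3 c hc heig

/-- (G5a) If `I` is principal then `β = ε * b ^ p` with `ε` a unit. -/
theorem exists_unit_mul_pow (β : 𝓞 K) (hβ : β ≠ 0) (I : (Ideal (𝓞 K))⁰)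
    (hI : Ideal.span {β} = (I : Ideal (𝓞 K)) ^ p) (hc : ClassGroup.mk0 I = 1) :
    ∃ (ε : (𝓞 K)ˣ) (b : 𝓞 K), b ≠ 0 ∧ β = (ε : 𝓞 K) * b ^ p :=
  GlueP.exists_unit_mul_pow β hβ I hI hc

/-- (G5b) The unit `ε` inherits the eigen-property modulo `p`-th powers of units. -/
theorem unit_eigen (β : 𝓞 K) (ε : (𝓞 K)ˣ) (b : 𝓞 K) (hb : b ≠ 0)
    (hβ : β = (ε : 𝓞 K) * b ^ p)
    (heig : ∀ σ : K ≃ₐ[ℚ] K, ∃ γ : K, σ (β : K) = (β : K) ^ sqExp p K σ * γ ^ p) :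
    ∀ σ : K ≃ₐ[ℚ] K, ∃ w : (𝓞 K)ˣ,
      σ ((ε : 𝓞 K) : K) = ((ε : 𝓞 K) : K) ^ sqExp p K σ * ((w : 𝓞 K) : K) ^ p :=
  GlueP.unit_eigen β ε b hb hβ heig

/-- (G5c) The unit `ε` is congruent to a rational integer modulo `𝔭 ^ 3`. -/
theorem unit_local (hp3 : 3 ≤ p) (𝔭 : Ideal (𝓞 K)) (h𝔭 : 𝔭.IsPrime)
    (hp𝔭 : ((p : ℕ) : 𝓞 K) ∈ 𝔭)
    (β : 𝓞 K) (ε : (𝓞 K)ˣ) (b : 𝓞 K) (hb : b ≠ 0) (hβ : β = (ε : 𝓞 K) * b ^ p)
    (hloc : ∀ v : HeightOneSpectrum (𝓞 K), ((p : ℕ) : 𝓞 K) ∈ v.asIdeal →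
        ∃ x : K, v.valuation K ((β : K) * x ^ p - 1) ≤ WithZero.exp (-3 : ℤ)) :
    ∃ n : ℤ, ((ε : 𝓞 K) - (n : 𝓞 K)) ∈ 𝔭 ^ 3 :=
  GlueP.unit_local hp3 𝔭 h𝔭 hp𝔭 β ε b hb hβ hloc

/-- (G6) There is a prime of `𝓞 K` above `p`. -/
theorem exists_prime_above_p :
    ∃ 𝔭 : Ideal (𝓞 K), 𝔭.IsPrime ∧ ((p : ℕ) : 𝓞 K) ∈ 𝔭 :=
  GlueP.exists_prime_above_p

/-- (G7) For `p = 3` the class group of `K = ℚ(ζ₃)` is trivial. -/
theorem classGroup_trivial_of_three (hp : p = 3) (c : ClassGroup (𝓞 K)) : c = 1 :=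
  GlueP.classGroup_trivial_of_three hp c

end

end Fermat.Agent.S14.Thaine.Glue
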